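/-
GATE-M / S41 node (A) NON-EISENSTEIN (helper81), file 2: Galois elements on the `p`-torsion.

`W/ℤ` with `Δ ≠ 0`, `p` a prime.  If `a_ℓ(W) ≡ ℓ + 1 (mod p)` for every good prime `ℓ ≠ p` outside a
finite set `B`, then every `g ∈ G_ℚ` either fixes a nonzero point of `W(ℚ̄)[p]` or acts on
`W(ℚ̄)[p]` as an integer scalar.

Inputs (import only): the Frobenius relation `GE/Top/ECFinal.frobRel` (EC-FROB-1), the finite level
of the torsion representation `GE/Top/ECAssembly.galEnd_level`, and Frobenius' theorem in the form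
`GJ/FrobLiftMain.exists_isFrobeniusAt_pow'`.
-/
import Fermat.Agent.GE.Top.ECFinal
import Fermat.Agent.GJ.FrobLiftMain

set_option autoImplicit false

open Fermat.Agent.Common_helper32
open scoped WeierstrassCurve.Affine

namespace Fermat.Agent.GM.NonEis

open WeierstrassCurve WeierstrassCurve.Affine.Point Fermat.Agent.GE.ECAssembly

/-- an integer congruent to `0` mod `p` kills the points killed by `p` -/
theorem zsmul_eq_zsmul_of_zmod_eq {M : Type*} [AddCommGroup M] {p : ℕ} {a b : ℤ}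
    (hab : (a : ZMod p) = (b : ZMod p)) {X : M} (hX : p • X = 0) : a • X = b • X := by
  have h1 : (p : ℤ) ∣ a - b := by
    rw [← ZMod.intCast_zmod_eq_zero_iff_dvd, Int.cast_sub, hab, sub_self]
  obtain ⟨m, hm⟩ := h1
  have h2 : (a - b) • X = 0 := by
    rw [hm, mul_comm, mul_smul, natCast_zsmul, hX, smul_zero]
  rw [sub_smul, sub_eq_zero] at h2
  exact h2

/-- **A Frobenius at a good prime `ℓ ≠ p` with `a_ℓ ≡ ℓ + 1 (mod p)`** either fixes a nonzero
`p`-torsion point or acts on the `p`-torsion as the scalar `ℓ`. -/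
theorem frob_fixed_or_scalar (W : WeierstrassCurve ℤ) {p ℓ : ℕ} (hp : p.Prime) (hℓ : ℓ.Prime)
    (hℓp : ℓ ≠ p) (hgood : ¬ (ℓ : ℤ) ∣ W.Δ)
    (hap : ((W.apOfModel ℓ : ℤ) : ZMod p) = (ℓ : ZMod p) + 1)
    (A : ValuationSubring Qb) (hA : A.LiesOverPrime ℓ) (τ : GQ) (hτ : A.IsFrobeniusAt τ ℓ) :
    (∃ Q : (EQb W).Point, Q ≠ 0 ∧ p • Q = 0 ∧ τ • Q = Q) ∨
      (∀ P : (EQb W).Point, p • P = 0 → τ • P = (ℓ : ℤ) • P) := by
  by_cases hsc : ∀ P : (EQb W).Point, p • P = 0 → τ • P = (ℓ : ℤ) • P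
  · exact Or.inr hsc
  · left
    push Not at hsc
    obtain ⟨P, hP, hne⟩ := hsc
    have hsn : ∀ (n : ℕ) (X : (EQb W).Point), τ • (n • X) = n • (τ • X) := fun n X =>
      map_nsmul (DistribSMul.toAddMonoidHom (EQb W).Point τ) n X
    have hsz : ∀ (n : ℤ) (X : (EQb W).Point), τ • (n • X) = n • (τ • X) := fun n X =>
      map_zsmul (DistribSMul.toAddMonoidHom (EQb W).Point τ) n X
    have hs0 : τ • (0 : (EQb W).Point) = 0 :=
      map_zero (DistribSMul.toAddMonoidHom (EQb W).Point τ)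
    have hss : ∀ X Y : (EQb W).Point, τ • (X - Y) = τ • X - τ • Y := fun X Y =>
      map_sub (DistribSMul.toAddMonoidHom (EQb W).Point τ) X Y
    have hτP : p • (τ • P) = 0 := by rw [← hsn, hP, hs0]
    -- the Frobenius relation
    have hrel := Fermat.Agent.GE.ECFinal.frobRel W hp 1 ℓ hℓ hℓp hgood A hA τ hτ P
      (by rw [pow_one]; exact hP)
    have ha : W.apOfModel ℓ • (τ • P) = ((ℓ : ℤ) + 1) • (τ • P) := by
      apply zsmul_eq_zsmul_of_zmod_eq (p := p) _ hτP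
      rw [hap]
      push_cast
      rfl
    rw [ha] at hrel
    refine ⟨τ • P - (ℓ : ℤ) • P, sub_ne_zero.mpr hne, ?_, ?_⟩
    · rw [nsmul_sub, hτP, smul_comm p (ℓ : ℤ) P, hP, zsmul_zero, sub_zero]
    · rw [hss, hsz]
      have h1 : τ • τ • P = ((ℓ : ℤ) + 1) • (τ • P) - (ℓ : ℤ) • P := by
        rw [eq_sub_iff_add_eq, ← sub_eq_zero]
        rw [← hrel]
        abel
      rw [h1, add_zsmul, one_zsmul]
      abel

/-- powers of an additive endomorphism fixing `x` fix `x` -/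
theorem addEnd_pow_apply_of_fixed {T : Type*} [AddCommGroup T] (f : AddMonoid.End T) {x : T}
    (hx : f x = x) (j : ℕ) : (f ^ j) x = x := by
  induction j with
  | zero => rfl
  | succ j ih =>
    rw [pow_succ]
    change (f ^ j) (f x) = x
    rw [hx, ih]

/-- powers of an additive endomorphism acting as the integer scalar `c` act as `c ^ j` -/
theorem addEnd_pow_apply_of_scalar {T : Type*} [AddCommGroup T] (f : AddMonoid.End T) {c : ℤ}
    (hc : ∀ x : T, f x = c • x) (j : ℕ) (x : T) : (f ^ j) x = (c ^ j) • x := by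
  induction j generalizing x with
  | zero =>
    rw [pow_zero, pow_zero, one_zsmul]
    rfl
  | succ j ih =>
    rw [pow_succ]
    change (f ^ j) (f x) = _
    rw [hc, ih, pow_succ, mul_zsmul]

/-- **Every Galois element** fixes a nonzero `p`-torsion point or acts on the `p`-torsion as an
integer scalar, if `a_ℓ ≡ ℓ + 1 (mod p)` for all good `ℓ ≠ p` outside the finite set `B`. -/
theorem gal_fixed_or_scalar (W : WeierstrassCurve ℤ) (hΔ : W.Δ ≠ 0) {p : ℕ} (hp : p.Prime)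
    (B : Finset ℕ)
    (hall : ∀ ℓ : ℕ, ℓ.Prime → ℓ ∉ B → ℓ ≠ p → ¬ (ℓ : ℤ) ∣ W.Δ →
      ((W.apOfModel ℓ : ℤ) : ZMod p) = (ℓ : ZMod p) + 1) (g : GQ) :
    (∃ Q : (EQb W).Point, Q ≠ 0 ∧ p • Q = 0 ∧ g • Q = Q) ∨
      (∃ c : ℤ, ∀ P : (EQb W).Point, p • P = 0 → g • P = c • P) := by
  classical
  obtain ⟨ℓ, A, τ, j, hℓ, hℓB, hA, hτ, hgτ⟩ :=
    Fermat.Agent.GJ.FrobLift.exists_isFrobeniusAt_pow' (galEnd W p)
      (galEnd_level W hΔ p hp.one_le) (B ∪ insert p W.Δ.natAbs.primeFactors) g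
  rw [Finset.mem_union, not_or] at hℓB
  obtain ⟨hℓp, hgood⟩ := good_of_not_mem W hΔ hℓ hℓB.2
  have key : ∀ (P : (EQb W).Point) (hP : p • P = 0),
      g • P = (((galEnd W p τ) ^ j) ⟨P, (mem_TN_iff W p P).mpr hP⟩ : TN W p) := by
    intro P hP
    rw [← hgτ]
    rfl
  rcases frob_fixed_or_scalar W hp hℓ hℓp hgood (hall ℓ hℓ hℓB.1 hℓp hgood) A hA τ hτ with
    ⟨Q, hQ0, hQ, hfix⟩ | hsc
  · left
    refine ⟨Q, hQ0, hQ, ?_⟩
    rw [key Q hQ, addEnd_pow_apply_of_fixed (galEnd W p τ) (x := ⟨Q, (mem_TN_iff W p Q).mpr hQ⟩)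
      (Subtype.ext hfix)]
  · right
    refine ⟨(ℓ : ℤ) ^ j, fun P hP => ?_⟩
    rw [key P hP, addEnd_pow_apply_of_scalar (galEnd W p τ) (c := (ℓ : ℤ))
      (fun x => Subtype.ext (hsc x (nsmul_TN W p x)))]
    rfl

end Fermat.Agent.GM.NonEis
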