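/-
GATE-M / S41 node (A) NON-EISENSTEIN (helper81), file 1: the group lemma.

`V` a two-dimensional vector space over a field `k` with `2 ≠ 0`, `ρ : G →* End_k(V)` a
representation of a group.  If every `ρ g` either fixes a nonzero vector or is a scalar, then `V`
has a `G`-stable subspace different from `⊥` and `⊤`.

Inputs: Mathlib and the Kolchin-type theorem `GL/Tate/KolchinSq`.
-/
import Mathlib
import Fermat.Agent.GL.Tate.KolchinSq

set_option autoImplicit false

namespace Fermat.Agent.GM.NonEis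

open Module

section TwoDim

variable {k V : Type*} [Field k] [AddCommGroup V] [Module k V]

/-- In dimension two, an endomorphism of determinant one fixing a nonzero vector is unipotent. -/
theorem sub_one_sq_eq_zero_of_fixed_of_det (hdim : finrank k V = 2) (f : Module.End k V) {v : V}
    (hv : v ≠ 0) (hfv : f v = v) (hdet : LinearMap.det f = 1) : (f - 1) * (f - 1) = 0 := by
  classical
  have : FiniteDimensional k V := FiniteDimensional.of_finrank_pos (by omega)
  obtain ⟨w, hli⟩ := exists_linearIndependent_pair_of_one_lt_finrank (R := k) (by omega) hv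
  set b : Basis (Fin 2) k V :=
    basisOfLinearIndependentOfCardEqFinrank hli (by rw [hdim]; rfl) with hb
  have hbf : (b : Fin 2 → V) = ![v, w] := coe_basisOfLinearIndependentOfCardEqFinrank _ _
  have hb0 : b 0 = v := by rw [hbf]; rfl
  have hb1 : b 1 = w := by rw [hbf]; rfl
  have hr0 : b.repr v 0 = 1 := by rw [← hb0, b.repr_self]; simp
  have hr1 : b.repr v 1 = 0 := by rw [← hb0, b.repr_self]; simp
  -- the determinant is the lower right entry
  have hd : b.repr (f w) 1 = 1 := by
    have h1 := LinearMap.det_toMatrix b f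
    rw [Matrix.det_fin_two, LinearMap.toMatrix_apply, LinearMap.toMatrix_apply,
      LinearMap.toMatrix_apply, LinearMap.toMatrix_apply, hb0, hb1, hfv, hr0, hr1, hdet] at h1
    simpa using h1
  have hfw : f w = b.repr (f w) 0 • v + w := by
    have h1 := b.sum_repr (f w)
    rw [Fin.sum_univ_two, hb0, hb1, hd, one_smul] at h1
    exact h1.symm
  apply b.ext
  intro i
  have hv0 : (f - 1) v = 0 := by
    rw [LinearMap.sub_apply, hfv, Module.End.one_apply, sub_self]
  fin_cases i
  · change ((f - 1) * (f - 1)) (b 0) = 0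
    rw [hb0, Module.End.mul_apply, hv0, map_zero]
  · change ((f - 1) * (f - 1)) (b 1) = 0
    rw [hb1, Module.End.mul_apply]
    have : (f - 1) w = b.repr (f w) 0 • v := by
      rw [LinearMap.sub_apply, Module.End.one_apply]
      nth_rewrite 1 [hfw]
      abel
    rw [this, map_smul, hv0, smul_zero]

/-- a two-dimensional space has a subspace different from `⊥` and `⊤` -/
theorem exists_proper_submodule (hdim : finrank k V = 2) :
    ∃ N : Submodule k V, N ≠ ⊥ ∧ N ≠ ⊤ := by
  have : FiniteDimensional k V := FiniteDimensional.of_finrank_pos (by omega)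
  have : Nontrivial V := (finrank_pos_iff (R := k) (M := V)).mp (by omega)
  obtain ⟨v, hv⟩ := exists_ne (0 : V)
  refine ⟨Submodule.span k {v}, ?_, ?_⟩
  · intro h
    rw [Submodule.span_singleton_eq_bot] at h
    exact hv h
  · intro h
    have h1 : finrank k (Submodule.span k {v}) = 1 := finrank_span_singleton hv
    rw [h, finrank_top, hdim] at h1
    omega

end TwoDim

section Group

variable {k V G : Type*} [Field k] [AddCommGroup V] [Module k V] [Group G]

/-- the kernel of `ρ g₀ - 1` is stable under everything commuting with `ρ g₀` -/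
theorem ker_sub_one_stable (ρ : G →* Module.End k V) (g₀ g : G)
    (hcomm : ρ g * ρ g₀ = ρ g₀ * ρ g) (v : V) (hv : v ∈ LinearMap.ker (ρ g₀ - 1)) :
    ρ g v ∈ LinearMap.ker (ρ g₀ - 1) := by
  rw [LinearMap.mem_ker, LinearMap.sub_apply, Module.End.one_apply, sub_eq_zero] at hv ⊢
  calc ρ g₀ (ρ g v) = (ρ g₀ * ρ g) v := rfl
    _ = (ρ g * ρ g₀) v := by rw [hcomm]
    _ = ρ g (ρ g₀ v) := rfl
    _ = ρ g v := by rw [hv]

/-- a non-identity endomorphism fixing a nonzero vector has a proper nonzero fixed space -/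
theorem ker_sub_one_proper (f : Module.End k V) (hf : f ≠ 1) {v : V} (hv : v ≠ 0)
    (hfv : f v = v) : LinearMap.ker (f - 1) ≠ ⊥ ∧ LinearMap.ker (f - 1) ≠ ⊤ := by
  constructor
  · intro h
    have : v ∈ LinearMap.ker (f - 1) := by
      rw [LinearMap.mem_ker, LinearMap.sub_apply, hfv, Module.End.one_apply, sub_self]
    rw [h, Submodule.mem_bot] at this
    exact hv this
  · intro h
    apply hf
    ext x
    have : x ∈ LinearMap.ker (f - 1) := by rw [h]; exact Submodule.mem_top
    rw [LinearMap.mem_ker, LinearMap.sub_apply, Module.End.one_apply, sub_eq_zero] at this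
    rw [this, Module.End.one_apply]

/-- **The group lemma, basic form.**  If every element of `G` fixes a nonzero vector of the
two-dimensional space `V` (over a field with `2 ≠ 0`), then `V` is reducible. -/
theorem exists_stable_of_forall_fixed (h2 : (2 : k) ≠ 0) (hdim : finrank k V = 2)
    (ρ : G →* Module.End k V) (h : ∀ g : G, ∃ v : V, v ≠ 0 ∧ ρ g v = v) :
    ∃ N : Submodule k V, N ≠ ⊥ ∧ N ≠ ⊤ ∧ ∀ g : G, ∀ v ∈ N, ρ g v ∈ N := by
  classical
  have : FiniteDimensional k V := FiniteDimensional.of_finrank_pos (by omega)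
  have : Nontrivial V := (finrank_pos_iff (R := k) (M := V)).mp (by omega)
  -- the determinant-one subgroup
  let δ : G →* k := (LinearMap.det : Module.End k V →* k).comp ρ
  let U : Subgroup G := δ.ker
  have hU : ∀ g ∈ U, (ρ g - 1) * (ρ g - 1) = 0 := by
    intro g hg
    obtain ⟨v, hv, hgv⟩ := h g
    exact sub_one_sq_eq_zero_of_fixed_of_det hdim (ρ g) hv hgv (MonoidHom.mem_ker.mp hg)
  obtain ⟨v₀, hv₀, hfix⟩ :=
    Fermat.Agent.GL.KolchinSq.exists_fixed_of_sub_one_sq_eq_zero_subgroup h2 ρ U hU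
  -- the space of `U`-invariants
  let N : Submodule k V :=
    { carrier := {v | ∀ u ∈ U, ρ u v = v}
      add_mem' := fun {a b} ha hb u hu => by rw [map_add, ha u hu, hb u hu]
      zero_mem' := fun u _ => map_zero _
      smul_mem' := fun c {a} ha u hu => by rw [map_smul, ha u hu] }
  have hNmem : ∀ v, v ∈ N ↔ ∀ u ∈ U, ρ u v = v := fun v => Iff.rfl
  have hNstab : ∀ g : G, ∀ v ∈ N, ρ g v ∈ N := by
    intro g v hv u hu
    have hu' : g⁻¹ * u * g ∈ U := by
      have := (inferInstance : U.Normal).conj_mem u hu g⁻¹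
      simpa using this
    have h1 := hv _ hu'
    have h3 : ρ g (ρ (g⁻¹ * u * g) v) = ρ u (ρ g v) := by
      have e : ρ g * ρ (g⁻¹ * u * g) = ρ u * ρ g := by
        rw [← map_mul, ← map_mul]
        congr 1
        group
      calc ρ g (ρ (g⁻¹ * u * g) v) = (ρ g * ρ (g⁻¹ * u * g)) v := rfl
        _ = (ρ u * ρ g) v := by rw [e]
        _ = ρ u (ρ g v) := rfl
    rw [← h3, h1]
  have hNbot : N ≠ ⊥ := by
    intro hb
    have : v₀ ∈ N := hfix
    rw [hb, Submodule.mem_bot] at this
    exact hv₀ this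
  by_cases hNtop : N = ⊤
  · -- `U` acts trivially, so the image of `ρ` is commutative
    have hUtriv : ∀ u ∈ U, ρ u = 1 := by
      intro u hu
      ext x
      have : x ∈ N := by rw [hNtop]; exact Submodule.mem_top
      rw [this u hu, Module.End.one_apply]
    have hcomm : ∀ g g' : G, ρ g * ρ g' = ρ g' * ρ g := by
      intro g g'
      have hc : g * g' * g⁻¹ * g'⁻¹ ∈ U := by
        rw [MonoidHom.mem_ker]
        have e : δ (g * g' * g⁻¹ * g'⁻¹) = δ (g * g⁻¹) * δ (g' * g'⁻¹) := by
          simp only [map_mul]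
          ring
        rw [e, mul_inv_cancel, mul_inv_cancel, map_one, one_mul]
      have h1 := hUtriv _ hc
      calc ρ g * ρ g' = ρ (g * g') := (map_mul ρ g g').symm
        _ = ρ ((g * g' * g⁻¹ * g'⁻¹) * (g' * g)) := by
            congr 1
            group
        _ = ρ (g * g' * g⁻¹ * g'⁻¹) * ρ (g' * g) := map_mul ρ _ _
        _ = ρ g' * ρ g := by rw [h1, one_mul, map_mul]
    by_cases hall : ∀ g : G, ρ g = 1
    · obtain ⟨N', hN'1, hN'2⟩ := exists_proper_submodule (k := k) (V := V) hdim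
      refine ⟨N', hN'1, hN'2, fun g v hv => ?_⟩
      rw [hall g, Module.End.one_apply]
      exact hv
    · push Not at hall
      obtain ⟨g₀, hg₀⟩ := hall
      obtain ⟨v, hv, hgv⟩ := h g₀
      obtain ⟨hk1, hk2⟩ := ker_sub_one_proper (ρ g₀) hg₀ hv hgv
      exact ⟨LinearMap.ker (ρ g₀ - 1), hk1, hk2,
        fun g v hv => ker_sub_one_stable ρ g₀ g (hcomm g g₀) v hv⟩
  · exact ⟨N, hNbot, hNtop, hNstab⟩


/-! ### The generalised form: every element fixes a nonzero vector or is a scalar -/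

/-- three eigenvectors with pairwise distinct eigenvalues do not fit in dimension two -/
theorem false_of_three_eigen (hdim : finrank k V = 2) (f : Module.End k V) {μ₁ μ₂ μ₃ : k}
    {v₁ v₂ v₃ : V} (h12 : μ₁ ≠ μ₂) (h13 : μ₁ ≠ μ₃) (h23 : μ₂ ≠ μ₃) (hv₁ : v₁ ≠ 0) (hv₂ : v₂ ≠ 0)
    (hv₃ : v₃ ≠ 0) (e₁ : f v₁ = μ₁ • v₁) (e₂ : f v₂ = μ₂ • v₂) (e₃ : f v₃ = μ₃ • v₃) : False := by
  have : FiniteDimensional k V := FiniteDimensional.of_finrank_pos (by omega)
  have hinj : Function.Injective ![μ₁, μ₂, μ₃] := by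
    intro i j hij
    fin_cases i <;> fin_cases j <;> first | rfl | (exfalso; simp at hij; tauto)
  have hli := Module.End.eigenvectors_linearIndependent' f ![μ₁, μ₂, μ₃] hinj ![v₁, v₂, v₃]
    (fun i => by
      fin_cases i
      · exact Module.End.hasEigenvector_iff.mpr ⟨Module.End.mem_eigenspace_iff.mpr e₁, hv₁⟩
      · exact Module.End.hasEigenvector_iff.mpr ⟨Module.End.mem_eigenspace_iff.mpr e₂, hv₂⟩
      · exact Module.End.hasEigenvector_iff.mpr ⟨Module.End.mem_eigenspace_iff.mpr e₃, hv₃⟩)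
  have := hli.fintype_card_le_finrank
  rw [hdim, Fintype.card_fin] at this
  omega

/-- an endomorphism of a two-dimensional space with eigenvalues `1` and `μ ≠ 1`, `μ ^ 2 = 1`, is an
involution -/
theorem mul_self_eq_one_of_eigen (hdim : finrank k V = 2) (f : Module.End k V) {μ : k}
    {v₁ v₂ : V} (hμ : μ ≠ 1) (hμ2 : μ * μ = 1) (hv₁ : v₁ ≠ 0) (hv₂ : v₂ ≠ 0) (e₁ : f v₁ = v₁)
    (e₂ : f v₂ = μ • v₂) : f * f = 1 := by
  classical
  have : FiniteDimensional k V := FiniteDimensional.of_finrank_pos (by omega)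
  have hinj : Function.Injective ![(1 : k), μ] := by
    intro i j hij
    fin_cases i <;> fin_cases j <;> first | rfl | (exfalso; simp at hij; tauto)
  have hli := Module.End.eigenvectors_linearIndependent' f ![(1 : k), μ] hinj ![v₁, v₂]
    (fun i => by
      fin_cases i
      · change (f : Module.End k V).HasEigenvector 1 v₁
        exact Module.End.hasEigenvector_iff.mpr
          ⟨Module.End.mem_eigenspace_iff.mpr (by rw [e₁]; exact (one_smul k v₁).symm), hv₁⟩
      · change (f : Module.End k V).HasEigenvector μ v₂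
        exact Module.End.hasEigenvector_iff.mpr ⟨Module.End.mem_eigenspace_iff.mpr e₂, hv₂⟩)
  set b : Basis (Fin 2) k V :=
    basisOfLinearIndependentOfCardEqFinrank hli (by rw [hdim]; rfl) with hb
  have hbf : (b : Fin 2 → V) = ![v₁, v₂] := coe_basisOfLinearIndependentOfCardEqFinrank _ _
  have hb0 : b 0 = v₁ := by rw [hbf]; rfl
  have hb1 : b 1 = v₂ := by rw [hbf]; rfl
  apply b.ext
  intro i
  fin_cases i
  · change (f * f) (b 0) = (1 : Module.End k V) (b 0)
    rw [hb0, Module.End.mul_apply, e₁, e₁, Module.End.one_apply]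
  · change (f * f) (b 1) = (1 : Module.End k V) (b 1)
    rw [hb1, Module.End.mul_apply, e₂, map_smul, e₂, smul_smul, hμ2, one_smul,
      Module.End.one_apply]

/-- **The group lemma, generalised form.**  If every element of `G` either fixes a nonzero vector
of the two-dimensional space `V` (over a field with `2 ≠ 0`) or acts as a scalar, then `V` is
reducible. -/
theorem exists_stable_of_fixed_or_scalar (h2 : (2 : k) ≠ 0) (hdim : finrank k V = 2)
    (ρ : G →* Module.End k V)
    (h : ∀ g : G, (∃ v : V, v ≠ 0 ∧ ρ g v = v) ∨ (∃ c : k, ∀ v : V, ρ g v = c • v)) :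
    ∃ N : Submodule k V, N ≠ ⊥ ∧ N ≠ ⊤ ∧ ∀ g : G, ∀ v ∈ N, ρ g v ∈ N := by
  classical
  have : FiniteDimensional k V := FiniteDimensional.of_finrank_pos (by omega)
  have : Nontrivial V := (finrank_pos_iff (R := k) (M := V)).mp (by omega)
  -- Case A: all elements are scalars
  by_cases hA : ∀ g : G, ∃ c : k, ∀ v : V, ρ g v = c • v
  · obtain ⟨N', hN'1, hN'2⟩ := exists_proper_submodule (k := k) (V := V) hdim
    refine ⟨N', hN'1, hN'2, fun g v hv => ?_⟩
    obtain ⟨c, hc⟩ := hA g
    rw [hc v]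
    exact N'.smul_mem c hv
  push Not at hA
  obtain ⟨g₀, hg₀⟩ := hA
  -- Case B1: the only scalar is `1`
  by_cases hB : ∀ (g : G) (c : k), (∀ v : V, ρ g v = c • v) → c = 1
  · refine exists_stable_of_forall_fixed h2 hdim ρ (fun g => ?_)
    rcases h g with hg | ⟨c, hc⟩
    · exact hg
    · obtain ⟨v, hv⟩ := exists_ne (0 : V)
      refine ⟨v, hv, ?_⟩
      rw [hc v, hB g c hc, one_smul]
  -- Case B2: a scalar `c ≠ 1` occurs; then every element is an involution
  push Not at hB
  -- a nonscalar element has the eigenvalue `c⁻¹` for each scalar `c ≠ 1` in the image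
  have hstep1 : ∀ (g z : G) (c : k), (∀ v : V, ρ z v = c • v) →
      (∀ d : k, ∃ v : V, ρ g v ≠ d • v) → ∃ v : V, v ≠ 0 ∧ ρ g v = c⁻¹ • v := by
    intro g z c hz hg
    have hc0 : c ≠ 0 := by
      rintro rfl
      obtain ⟨v, hv⟩ := exists_ne (0 : V)
      apply hv
      have h1 : ρ z⁻¹ (ρ z v) = v := by
        calc ρ z⁻¹ (ρ z v) = (ρ z⁻¹ * ρ z) v := rfl
          _ = v := by rw [← map_mul, inv_mul_cancel, map_one, Module.End.one_apply]
      rw [hz v, zero_smul, map_zero] at h1
      exact h1.symm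
    have hzg : ∀ v : V, ρ (z * g) v = c • ρ g v := by
      intro v
      rw [map_mul, Module.End.mul_apply, hz]
    rcases h (z * g) with ⟨v, hv, hfix⟩ | ⟨d, hd⟩
    · refine ⟨v, hv, ?_⟩
      rw [hzg] at hfix
      calc ρ g v = c⁻¹ • (c • ρ g v) := by rw [smul_smul, inv_mul_cancel₀ hc0, one_smul]
        _ = c⁻¹ • v := by rw [hfix]
    · exfalso
      obtain ⟨v, hv⟩ := hg (c⁻¹ * d)
      apply hv
      have := hd v
      rw [hzg] at this
      calc ρ g v = c⁻¹ • (c • ρ g v) := by rw [smul_smul, inv_mul_cancel₀ hc0, one_smul]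
        _ = (c⁻¹ * d) • v := by rw [this, smul_smul]
  -- every scalar `c ≠ 1` in the image has `c * c = 1`
  have hstep2 : ∀ (z : G) (c : k), (∀ v : V, ρ z v = c • v) → c ≠ 1 → c * c = 1 := by
    intro z c hz hc1
    by_contra hcc
    have hc0 : c ≠ 0 := by
      rintro rfl
      obtain ⟨v, hv, hv'⟩ := hstep1 g₀ z 0 hz hg₀
      obtain ⟨v₁, hv₁, hfix₁⟩ : ∃ v : V, v ≠ 0 ∧ ρ g₀ v = v := by
        rcases h g₀ with hg | ⟨d, hd⟩
        · exact hg
        · obtain ⟨w, hw⟩ := hg₀ d
          exact absurd (hd w) hw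
      -- `ρ z = 0` is impossible
      have h1 : ρ z⁻¹ (ρ z v₁) = v₁ := by
        calc ρ z⁻¹ (ρ z v₁) = (ρ z⁻¹ * ρ z) v₁ := rfl
          _ = v₁ := by rw [← map_mul, inv_mul_cancel, map_one, Module.End.one_apply]
      rw [hz v₁, zero_smul, map_zero] at h1
      exact hv₁ h1.symm
    obtain ⟨v₁, hv₁, hfix₁⟩ : ∃ v : V, v ≠ 0 ∧ ρ g₀ v = v := by
      rcases h g₀ with hg | ⟨d, hd⟩
      · exact hg
      · obtain ⟨w, hw⟩ := hg₀ d
        exact absurd (hd w) hw
    obtain ⟨v₂, hv₂, he₂⟩ := hstep1 g₀ z c hz hg₀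
    have hzz : ∀ v : V, ρ (z * z) v = (c * c) • v := by
      intro v
      rw [map_mul, Module.End.mul_apply, hz, hz, smul_smul]
    obtain ⟨v₃, hv₃, he₃⟩ := hstep1 g₀ (z * z) (c * c) hzz hg₀
    have hci : c⁻¹ ≠ 1 := fun hh => hc1 (inv_eq_one.mp hh)
    have hcci : (c * c)⁻¹ ≠ 1 := fun hh => hcc (inv_eq_one.mp hh)
    refine false_of_three_eigen hdim (ρ g₀) (μ₁ := 1) (μ₂ := c⁻¹) (μ₃ := (c * c)⁻¹)
      (Ne.symm hci) (Ne.symm hcci) ?_ hv₁ hv₂ hv₃ (by rw [hfix₁, one_smul]) he₂ he₃
    intro hh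
    apply hc1
    have h3 : c = c * c := inv_injective hh
    have h4 : c * 1 = c * c := by rw [mul_one]; exact h3
    exact (mul_left_cancel₀ hc0 h4).symm
  obtain ⟨z, c, hz, hc1⟩ := hB
  have hcc : c * c = 1 := hstep2 z c hz hc1
  have hc0 : c ≠ 0 := by
    rintro rfl
    rw [zero_mul] at hcc
    exact zero_ne_one hcc
  have hcinv : c⁻¹ = c := by
    rw [inv_eq_iff_eq_inv]
    exact (eq_inv_of_mul_eq_one_left hcc)
  have hinvol : ∀ g : G, ρ g * ρ g = 1 := by
    intro g
    by_cases hg : ∃ d : k, ∀ v : V, ρ g v = d • v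
    · obtain ⟨d, hd⟩ := hg
      have hdd : d * d = 1 := by
        by_cases hd1 : d = 1
        · rw [hd1, one_mul]
        · exact hstep2 g d hd hd1
      ext v
      rw [Module.End.mul_apply, hd, hd, smul_smul, hdd, one_smul, Module.End.one_apply]
    · push Not at hg
      obtain ⟨v₁, hv₁, hfix₁⟩ : ∃ v : V, v ≠ 0 ∧ ρ g v = v := by
        rcases h g with hg' | ⟨d, hd⟩
        · exact hg'
        · obtain ⟨w, hw⟩ := hg d
          exact absurd (hd w) hw
      obtain ⟨v₂, hv₂, he₂⟩ := hstep1 g z c hz hg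
      rw [hcinv] at he₂
      exact mul_self_eq_one_of_eigen hdim (ρ g) hc1 hcc hv₁ hv₂ hfix₁ he₂
  -- hence the image is commutative
  have hcomm : ∀ g g' : G, ρ g * ρ g' = ρ g' * ρ g := by
    intro g g'
    have hA := hinvol g
    have hB' := hinvol g'
    have hAB := hinvol (g * g')
    rw [map_mul] at hAB
    calc ρ g * ρ g' = ρ g' * ρ g' * (ρ g * ρ g') * (ρ g * ρ g) := by
          rw [hA, hB', one_mul, mul_one]
      _ = ρ g' * (ρ g' * ρ g * (ρ g' * ρ g)) * ρ g := by noncomm_ring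
      _ = ρ g' * ρ g := by
          have hBA : ρ g' * ρ g * (ρ g' * ρ g) = 1 := by
            have := hinvol (g' * g)
            rwa [map_mul] at this
          rw [hBA, mul_one]
  -- the fixed line of the nonscalar element `g₀`
  obtain ⟨v₁, hv₁, hfix₁⟩ : ∃ v : V, v ≠ 0 ∧ ρ g₀ v = v := by
    rcases h g₀ with hg | ⟨d, hd⟩
    · exact hg
    · obtain ⟨w, hw⟩ := hg₀ d
      exact absurd (hd w) hw
  have hg₀1 : ρ g₀ ≠ 1 := by
    intro hh
    obtain ⟨w, hw⟩ := hg₀ 1
    apply hw
    rw [hh, Module.End.one_apply, one_smul]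
  obtain ⟨hk1, hk2⟩ := ker_sub_one_proper (ρ g₀) hg₀1 hv₁ hfix₁
  exact ⟨LinearMap.ker (ρ g₀ - 1), hk1, hk2,
    fun g v hv => ker_sub_one_stable ρ g₀ g (hcomm g g₀) v hv⟩

end Group

end Fermat.Agent.GM.NonEis
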