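/-
GATE-M / S41 node (A) NON-EISENSTEIN (helper81), file 3: the main statement.

`E/ℚ` elliptic with integral model `W`, `p ≠ 2` prime, `E[p]` irreducible (frozen S41 hypothesis
shape).  Then for every finite set `B` of primes there is a good prime `ℓ ∉ B`, `ℓ ≠ p`, with
`a_ℓ(W) ≢ ℓ + 1 (mod p)`.

Proof: otherwise every `g ∈ G_ℚ` fixes a nonzero point of `W(ℚ̄)[p]` or is a scalar on it
(`FrobFixed.gal_fixed_or_scalar`), the same holds on `E(ℚ̄)[p]` (transport along the variable change,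
`S05.vcBaseChangeEquiv`), `#E(ℚ̄)[p] = p²` (`GE/Tors/Cor`), and the group lemma
(`GroupLemma.exists_stable_of_fixed_or_scalar`) produces a Galois-stable line.
-/
import Fermat.Agent.GM.NonEis.GroupLemma
import Fermat.Agent.GM.NonEis.FrobFixed
import Fermat.Agent.S05.VarChange
import Fermat.Agent.GE.Tors.Cor
import Fermat.Prelude.Def_EllipticCurve_FrobeniusTrace
import Fermat.Prelude.Def_FLTPrelim_Modularity

set_option autoImplicit false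

open Fermat.Agent.Common_helper32
open scoped WeierstrassCurve.Affine

namespace Fermat.Agent.GM.NonEis

open WeierstrassCurve WeierstrassCurve.Affine.Point Fermat.Agent.GE.ECAssembly

/-- the discriminant of an integral model of an elliptic curve is nonzero -/
theorem Δ_ne_zero_of_isIntegralModelOf (E : WeierstrassCurve ℚ) [E.IsElliptic]
    {W : WeierstrassCurve ℤ} (hW : W.IsIntegralModelOf E) : W.Δ ≠ 0 := by
  obtain ⟨C, hC⟩ := hW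
  intro h0
  have h1 : (C • E).Δ = 0 := by
    rw [hC, WeierstrassCurve.map_Δ, h0, _root_.map_zero]
  rw [WeierstrassCurve.variableChange_Δ] at h1
  rcases mul_eq_zero.mp h1 with h2 | h2
  · exact (pow_ne_zero 12 (Units.ne_zero _)) h2
  · exact E.isUnit_Δ.ne_zero h2

/-- the dichotomy of `gal_fixed_or_scalar`, transported to any curve `ℚ`-isomorphic to the model -/
theorem gal_fixed_or_scalar_of_model (E : WeierstrassCurve ℚ) [E.IsElliptic]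
    {W : WeierstrassCurve ℤ} (hW : W.IsIntegralModelOf E) {p : ℕ} (hp : p.Prime) (B : Finset ℕ)
    (hall : ∀ ℓ : ℕ, ℓ.Prime → ℓ ∉ B → ℓ ≠ p → ¬ (ℓ : ℤ) ∣ W.Δ →
      ((W.apOfModel ℓ : ℤ) : ZMod p) = (ℓ : ZMod p) + 1) (g : GQ) :
    (∃ Q : (E⁄Qb).Point, Q ≠ 0 ∧ p • Q = 0 ∧ g • Q = Q) ∨
      (∃ c : ℤ, ∀ P : (E⁄Qb).Point, p • P = 0 → g • P = c • P) := by
  have hΔ := Δ_ne_zero_of_isIntegralModelOf E hW
  obtain ⟨C, hC⟩ := hW
  have h1 : ∀ WQ : WeierstrassCurve ℚ, WQ = W.map (Int.castRingHom ℚ) →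
      (∃ Q : (WQ⁄Qb).Point, Q ≠ 0 ∧ p • Q = 0 ∧ g • Q = Q) ∨
        (∃ c : ℤ, ∀ P : (WQ⁄Qb).Point, p • P = 0 → g • P = c • P) := by
    intro WQ h
    subst h
    exact gal_fixed_or_scalar W hΔ hp B hall g
  set e := Fermat.Agent.S05.vcBaseChangeEquiv (K := Qb) E C with he
  have hsm : ∀ P, e (g • P) = g • e P :=
    fun P => Fermat.Agent.S05.vcBaseChangeEquiv_smul (S := ℚ) E C g P
  rcases h1 (C • E) hC with ⟨Q, hQ0, hQ, hfix⟩ | ⟨c, hc⟩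
  · left
    refine ⟨e Q, ?_, ?_, ?_⟩
    · intro h
      exact hQ0 (e.map_eq_zero_iff.mp h)
    · rw [← map_nsmul, hQ, _root_.map_zero]
    · rw [← hsm, hfix]
  · right
    refine ⟨c, fun P hP => ?_⟩
    have h2 : p • e.symm P = 0 := by rw [← map_nsmul, hP, _root_.map_zero]
    have h3 := hc (e.symm P) h2
    have h4 := congrArg e h3
    rw [hsm, AddEquiv.apply_symm_apply, map_zsmul, AddEquiv.apply_symm_apply] at h4
    exact h4

/-- **GATE-M node (A), NON-EISENSTEIN.**  If `E[p]` is irreducible (`p ≠ 2`) then for every finite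
set `B` there is a good prime `ℓ ∉ B`, `ℓ ≠ p`, with `a_ℓ(W) ≢ ℓ + 1 (mod p)`. -/
theorem exists_good_prime_ap_ne (E : WeierstrassCurve ℚ) [E.IsElliptic] {W : WeierstrassCurve ℤ}
    (hW : W.IsIntegralModelOf E) {p : ℕ} (hp : p.Prime) (hp2 : p ≠ 2)
    (hirr : GaloisRepIsIrreducible (K := AlgebraicClosure ℚ) ℚ E p) (B : Finset ℕ) :
    ∃ ℓ : ℕ, ℓ.Prime ∧ ℓ ∉ B ∧ ℓ ≠ p ∧ W.IsGoodPrimeFor ℓ ∧
      ((W.apOfModel ℓ : ℤ) : ZMod p) ≠ (ℓ : ZMod p) + 1 := by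
  classical
  by_contra hcon
  push Not at hcon
  have hall : ∀ ℓ : ℕ, ℓ.Prime → ℓ ∉ B → ℓ ≠ p → ¬ (ℓ : ℤ) ∣ W.Δ →
      ((W.apOfModel ℓ : ℤ) : ZMod p) = (ℓ : ZMod p) + 1 :=
    fun ℓ h1 h2 h3 h4 => hcon ℓ h1 h2 h3 h4
  have : Fact p.Prime := ⟨hp⟩
  -- the size of the `p`-torsion
  have hΔQb : (E⁄Qb).Δ ≠ 0 := by
    change (E.map (algebraMap ℚ Qb)).Δ ≠ 0
    rw [WeierstrassCurve.map_Δ]
    exact (_root_.map_ne_zero _).mpr E.isUnit_Δ.ne_zero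
  have hcard : Nat.card (Submodule.torsionBy ℤ (E⁄Qb).Point (p : ℤ)) = p ^ 2 :=
    Fermat.Agent.GE.Tors.card_torsionBy hΔQb p hp.one_le
  have : Finite (Submodule.torsionBy ℤ (E⁄Qb).Point (p : ℤ)) :=
    Nat.finite_of_card_ne_zero (by rw [hcard]; exact pow_ne_zero 2 hp.ne_zero)
  have hdim : Module.finrank (ZMod p) (Submodule.torsionBy ℤ (E⁄Qb).Point (p : ℤ)) = 2 := by
    have h1 := Module.natCard_eq_pow_finrank (K := ZMod p)
      (V := Submodule.torsionBy ℤ (E⁄Qb).Point (p : ℤ))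
    rw [hcard, Nat.card_zmod] at h1
    exact (Nat.pow_right_injective hp.two_le h1).symm
  have h2 : (2 : ZMod p) ≠ 0 := by
    intro h
    have h3 : ((2 : ℕ) : ZMod p) = 0 := by exact_mod_cast h
    rw [ZMod.natCast_eq_zero_iff] at h3
    exact hp2 ((Nat.prime_dvd_prime_iff_eq hp Nat.prime_two).mp h3)
  -- the dichotomy on the torsion module
  have hmem : ∀ Q : (E⁄Qb).Point, p • Q = 0 →
      Q ∈ Submodule.torsionBy ℤ (E⁄Qb).Point (p : ℤ) := fun Q hQ => by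
    rw [Submodule.mem_torsionBy_iff, natCast_zsmul]
    exact hQ
  have hdich : ∀ g : GQ,
      (∃ v : Submodule.torsionBy ℤ (E⁄Qb).Point (p : ℤ), v ≠ 0 ∧
        galoisRepModuleEnd (K := Qb) ℚ E p g v = v) ∨
      (∃ c : ZMod p, ∀ v : Submodule.torsionBy ℤ (E⁄Qb).Point (p : ℤ),
        galoisRepModuleEnd (K := Qb) ℚ E p g v = c • v) := by
    intro g
    rcases gal_fixed_or_scalar_of_model E hW hp B hall g with ⟨Q, hQ0, hQ, hfix⟩ | ⟨c, hc⟩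
    · left
      refine ⟨⟨Q, hmem Q hQ⟩, fun h => hQ0 (congrArg Subtype.val h), ?_⟩
      exact Subtype.ext hfix
    · right
      refine ⟨(c : ZMod p), fun v => ?_⟩
      rw [Int.cast_smul_eq_zsmul]
      apply Subtype.ext
      have hv : p • (v : (E⁄Qb).Point) = 0 := by
        have := v.2
        rw [Submodule.mem_torsionBy_iff, natCast_zsmul] at this
        exact this
      exact hc v hv
  obtain ⟨N, hN1, hN2, hstab⟩ := exists_stable_of_fixed_or_scalar h2 hdim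
    (galoisRepModuleEnd (K := Qb) ℚ E p) hdich
  rcases hirr.2 N (fun σ x hx => hstab σ x hx) with h | h
  · exact hN1 h
  · exact hN2 h

/-! ### Ideal forms -/

/-- an integer prime to `p` is not in a proper ideal containing `p` -/
theorem intCast_notMem_of_not_dvd {R : Type*} [CommRing R] {𝔪 : Ideal R} (h𝔪 : 𝔪 ≠ ⊤) {p : ℕ}
    (hp : p.Prime) (hpm : (p : R) ∈ 𝔪) {n : ℤ} (hn : ¬ (p : ℤ) ∣ n) : (n : R) ∉ 𝔪 := by
  intro hmem
  have hcop : IsCoprime (p : ℤ) n :=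
    (Nat.prime_iff_prime_int.mp hp).irreducible.coprime_iff_not_dvd.mpr hn
  obtain ⟨x, y, hxy⟩ := hcop
  apply h𝔪
  rw [Ideal.eq_top_iff_one]
  have h1 : ((x * (p : ℤ) + y * n : ℤ) : R) = 1 := by rw [hxy, Int.cast_one]
  rw [← h1]
  push_cast
  exact 𝔪.add_mem (𝔪.mul_mem_left _ hpm) (𝔪.mul_mem_left _ hmem)

/-- **Node (A), ideal form**: `a_ℓ(W) - (ℓ + 1) ∉ 𝔪` for a proper ideal `𝔪 ∋ p` of any ring. -/
theorem exists_good_prime_ap_notMem (E : WeierstrassCurve ℚ) [E.IsElliptic]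
    {W : WeierstrassCurve ℤ} (hW : W.IsIntegralModelOf E) {p : ℕ} (hp : p.Prime) (hp2 : p ≠ 2)
    (hirr : GaloisRepIsIrreducible (K := AlgebraicClosure ℚ) ℚ E p)
    {R : Type*} [CommRing R] {𝔪 : Ideal R} (h𝔪 : 𝔪 ≠ ⊤) (hpm : (p : R) ∈ 𝔪) (B : Finset ℕ) :
    ∃ ℓ : ℕ, ℓ.Prime ∧ ℓ ∉ B ∧ ℓ ≠ p ∧ W.IsGoodPrimeFor ℓ ∧
      ((W.apOfModel ℓ : ℤ) : R) - ((ℓ : R) + 1) ∉ 𝔪 := by
  obtain ⟨ℓ, h1, h2, h3, h4, h5⟩ := exists_good_prime_ap_ne E hW hp hp2 hirr B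
  refine ⟨ℓ, h1, h2, h3, h4, ?_⟩
  have hn : ¬ (p : ℤ) ∣ W.apOfModel ℓ - ((ℓ : ℤ) + 1) := by
    intro hdvd
    apply h5
    rw [← ZMod.intCast_zmod_eq_zero_iff_dvd] at hdvd
    push_cast at hdvd
    exact sub_eq_zero.mp hdvd
  have := intCast_notMem_of_not_dvd h𝔪 hp hpm hn
  push_cast at this
  exact this

/-- **Node (A), eigenform form** (hypotheses in the frozen S41 shape): the maximal ideal `𝔪` of the
congruence `f ≡ W` is non-Eisenstein, i.e. `a_ℓ(f) - (ℓ + 1) ∉ 𝔪` for some good `ℓ ∤ N`, `ℓ ≠ p`,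
outside any given finite set. -/
theorem exists_good_prime_eigen_notMem (E : WeierstrassCurve ℚ) [E.IsElliptic]
    {W : WeierstrassCurve ℤ} (hW : W.IsIntegralModelOf E) {p N : ℕ} (hp : p.Prime) (hp2 : p ≠ 2)
    (hN : 0 < N) (hirr : GaloisRepIsIrreducible (K := AlgebraicClosure ℚ) ℚ E p)
    (f : CuspForm (CongruenceSubgroup.Gamma0 N) 2) (𝔪 : Ideal (integralClosure ℤ ℂ))
    (hmax : 𝔪.IsMaximal) (hpm : (p : integralClosure ℤ ℂ) ∈ 𝔪)
    (hcong : ∀ ℓ : ℕ, ℓ.Prime → W.IsGoodPrimeFor ℓ → ¬ ℓ ∣ N → ℓ ≠ p →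
      ∃ a : integralClosure ℤ ℂ, (a : ℂ) = ModularFormClass.qCoeff f ℓ ∧
        a - ((W.apOfModel ℓ : ℤ) : integralClosure ℤ ℂ) ∈ 𝔪) (B : Finset ℕ) :
    ∃ ℓ : ℕ, ℓ.Prime ∧ ℓ ∉ B ∧ ℓ ≠ p ∧ W.IsGoodPrimeFor ℓ ∧ ¬ ℓ ∣ N ∧
      ∃ a : integralClosure ℤ ℂ, (a : ℂ) = ModularFormClass.qCoeff f ℓ ∧
        a - ((W.apOfModel ℓ : ℤ) : integralClosure ℤ ℂ) ∈ 𝔪 ∧
        a - ((ℓ : integralClosure ℤ ℂ) + 1) ∉ 𝔪 := by
  classical
  obtain ⟨ℓ, h1, h2, h3, h4, h5⟩ := exists_good_prime_ap_notMem E hW hp hp2 hirr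
    hmax.ne_top hpm (B ∪ N.primeFactors)
  rw [Finset.mem_union, not_or] at h2
  have hℓN : ¬ ℓ ∣ N := fun hdvd => h2.2 (Nat.mem_primeFactors.mpr ⟨h1, hdvd, hN.ne'⟩)
  obtain ⟨a, ha, hmem⟩ := hcong ℓ h1 h4 hℓN h3
  refine ⟨ℓ, h1, h2.1, h3, h4, hℓN, a, ha, hmem, fun hcon => h5 ?_⟩
  have : ((W.apOfModel ℓ : ℤ) : integralClosure ℤ ℂ) - ((ℓ : integralClosure ℤ ℂ) + 1) =
      (a - ((ℓ : integralClosure ℤ ℂ) + 1)) - (a - ((W.apOfModel ℓ : ℤ) : integralClosure ℤ ℂ)) := by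
    ring
  rw [this]
  exact 𝔪.sub_mem hcon hmem

end Fermat.Agent.GM.NonEis
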